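import Mathlib

/-!
# A module that is Zariski-locally isomorphic to the ring is invertible

`invertible_of_locallyTrivial` proves this through finite presentation and the rank one identity.
-/

set_option autoImplicit false

open scoped TensorProduct

namespace Fermat.PIC

variable {R : Type*} [CommRing R] {M : Type*} [AddCommGroup M] [Module R M]

/-- A module with a unit contraction and the rank one identity is invertible. -/
lemma invertible_of_contract (h1 : (1 : R) ∈ LinearMap.range (contractLeft R M))
    (h2 : ∀ (f : Module.Dual R M) (m n : M), f m • n = f n • m) : Module.Invertible R M := by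
  obtain ⟨e, he⟩ := h1
  let inv : R →ₗ[R] Module.Dual R M ⊗[R] M := LinearMap.toSpanSingleton R _ e
  refine ⟨⟨?_, fun r ↦ ⟨inv r, by simp [inv, he]⟩⟩⟩
  have key : ∀ x, inv (contractLeft R M x) = x := by
    intro x
    induction x using TensorProduct.induction_on with
    | zero => simp
    | add x y hx hy => simp [map_add, hx, hy]
    | tmul f m =>
      suffices ∀ y, f m • y = contractLeft R M y • (f ⊗ₜ[R] m) by
        simpa [inv, he, contractLeft_apply] using this e
      intro y
      induction y using TensorProduct.induction_on with
      | zero => simp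
      | add a b ha hb => simp [map_add, add_smul, smul_add, ha, hb]
      | tmul h n =>
        simp only [contractLeft_apply]
        rw [← TensorProduct.tmul_smul, h2 f m n, TensorProduct.tmul_smul]
        have hh : f n • h = h n • f := by
          ext z
          have := congrArg f (h2 h n z)
          simp only [map_smul, smul_eq_mul] at this
          simp only [LinearMap.smul_apply, smul_eq_mul]
          linear_combination -this
        rw [TensorProduct.smul_tmul', hh, ← TensorProduct.smul_tmul']
  exact fun a b h ↦ by rw [← key a, ← key b, h]

variable (s : Set R) (hs : Ideal.span s = ⊤)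

include hs

/-- An element killed by powers of elements generating the unit ideal is zero. -/
lemma eq_zero_of_forall_pow_smul {d : M} (h : ∀ g : s, ∃ k : ℕ, g.1 ^ k • d = 0) : d = 0 := by
  have hle : Ideal.span s ≤ ((⊥ : Submodule R M).colon {d}).radical := by
    rw [Ideal.span_le]
    intro g hg
    obtain ⟨k, hk⟩ := h ⟨g, hg⟩
    exact ⟨k, by simpa [Submodule.mem_colon] using hk⟩
  rw [hs, top_le_iff, Ideal.radical_eq_top] at hle
  have h1 : (1 : R) ∈ (⊥ : Submodule R M).colon {d} := hle ▸ trivial
  simpa [Submodule.mem_colon] using h1

variable (φ : ∀ g : s, M →ₗ[R] Localization.Away g.1)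
  [∀ g : s, IsLocalizedModule (Submonoid.powers g.1) (φ g)]

include φ

/-- The rank one identity `f m • n = f n • m`. -/
lemma dual_smul_comm (f : Module.Dual R M) (m n : M) : f m • n = f n • m := by
  rw [← sub_eq_zero]
  refine eq_zero_of_forall_pow_smul s hs fun g ↦ ?_
  let S := Submonoid.powers g.1
  let f' : Localization.Away g.1 →ₗ[R] Localization.Away g.1 :=
    IsLocalizedModule.map S (φ g) (Algebra.linearMap R (Localization.Away g.1)) f
  have hf : ∀ x, f' (φ g x) = algebraMap R (Localization.Away g.1) (f x) := fun x ↦
    IsLocalizedModule.map_apply S (φ g) (Algebra.linearMap R (Localization.Away g.1)) f x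
  have hlin : ∀ x, f' x = x * f' 1 := fun x ↦ by
    have := (f'.extendScalarsOfIsLocalization S (Localization.Away g.1)).map_smul x 1
    simpa using this
  have h0 : φ g (f m • n - f n • m) = φ g 0 := by
    simp only [map_sub, map_smul, map_zero, Algebra.smul_def]
    rw [← hf, ← hf, hlin (φ g m), hlin (φ g n)]
    ring
  obtain ⟨⟨_, k, rfl⟩, hk⟩ := IsLocalizedModule.exists_of_eq (S := S) h0
  exact ⟨k, by simpa [Submonoid.smul_def] using hk⟩

/-- A module locally isomorphic to the ring is finitely presented. -/
lemma finitePresentation_of_locallyTrivial : Module.FinitePresentation R M :=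
  Module.FinitePresentation.of_localizationSpan' s hs (Rₚ := fun g ↦ Localization.Away g.1)
    φ fun _ ↦ inferInstance

/-- A module locally isomorphic to the ring is invertible. -/
lemma invertible_of_locallyTrivial : Module.Invertible R M := by
  classical
  have := finitePresentation_of_locallyTrivial s hs φ
  have hone : (1 : R) ∈ LinearMap.range (contractLeft R M) := by
    have hle : Ideal.span s ≤ Ideal.radical (LinearMap.range (contractLeft R M)) := by
      rw [Ideal.span_le]
      intro g hg
      let S := Submonoid.powers g
      have : IsLocalizedModule S (φ ⟨g, hg⟩) :=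
        inferInstanceAs (IsLocalizedModule (Submonoid.powers (⟨g, hg⟩ : s).1) (φ ⟨g, hg⟩))
      -- a local generator and functional: some power of `g` is a value
      obtain ⟨h, ⟨_, a, rfl⟩, ha⟩ := Module.FinitePresentation.exists_lift_of_isLocalizedModule
        S (Algebra.linearMap R (Localization.Away g)) (φ ⟨g, hg⟩)
      obtain ⟨⟨m, ⟨_, b, rfl⟩⟩, hb⟩ := IsLocalizedModule.surj S (φ ⟨g, hg⟩) 1
      have e : algebraMap R (Localization.Away g) (h m) =
          algebraMap R (Localization.Away g) (g ^ a * g ^ b) := by
        have := LinearMap.congr_fun ha m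
        simp only [LinearMap.coe_comp, Function.comp_apply, Algebra.linearMap_apply] at this
        rw [this, map_mul]
        simp only [LinearMap.smul_apply, Submonoid.smul_def, Algebra.smul_def]
        congr 1
        simpa [Submonoid.smul_def, Algebra.smul_def] using hb.symm
      obtain ⟨⟨_, c, rfl⟩, hc⟩ := (IsLocalization.eq_iff_exists S _).mp e
      refine ⟨c + (a + b), ?_⟩
      refine ⟨(g ^ c • h) ⊗ₜ m, ?_⟩
      simpa [contractLeft_apply, pow_add] using hc
    rw [hs, top_le_iff, Ideal.radical_eq_top] at hle
    rw [hle]
    trivial
  exact invertible_of_contract hone (dual_smul_comm s hs φ)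

end Fermat.PIC
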