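import Fermat.Agent.PIC.Invertible
import Fermat.Agent.PIC.InvertibleModule
import Mathlib

/-!
# Invertible sheaves on an affine scheme are exactly `tilde` of invertible modules

`isInvertible_iso_tilde` and `isInvertible_tilde` give the two directions.
-/

set_option autoImplicit false

universe u

open CategoryTheory CategoryTheory.Limits AlgebraicGeometry
open scoped TensorProduct

namespace Fermat.PIC

noncomputable section

/-- `extendScalars` along a ring homomorphism, for the induced algebra structure. -/
def extendScalarsToAlgebraIso {R A : Type u} [CommRing R] [CommRing A] (f : R →+* A)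
    (M : ModuleCat.{u} R) :
    (ModuleCat.extendScalars f).obj M ≅
      (letI := f.toAlgebra; ModuleCat.of A (A ⊗[R] M)) :=
  Iso.refl _

/-- `extendScalars` along `algebraMap` is the base change. -/
def extendScalarsIso (R A : Type u) [CommRing R] [CommRing A] [alg : Algebra R A]
    (M : ModuleCat.{u} R) :
    (ModuleCat.extendScalars (algebraMap R A)).obj M ≅ ModuleCat.of A (A ⊗[R] M) :=
  extendScalarsToAlgebraIso (algebraMap R A) M ≪≫
    eqToIso (congrArg (fun a : Algebra R A ↦ letI := a; ModuleCat.of A (A ⊗[R] M))
      (Algebra.algebra_ext (algebraMap R A).toAlgebra alg fun _ ↦ rfl))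

/-- A sheaf trivial after pullback along `i` is trivial after pullback along any morphism through
`i`. -/
lemma pullback_iso_unit_of_factor {Z U X : Scheme.{u}} {M : X.Modules} (u : Z ⟶ U) (i : U ⟶ X)
    (p : Z ⟶ X) (h : u ≫ i = p)
    (e : Nonempty ((Scheme.Modules.pullback i).obj M ≅ SheafOfModules.unit U.ringCatSheaf)) :
    Nonempty ((Scheme.Modules.pullback p).obj M ≅ SheafOfModules.unit Z.ringCatSheaf) :=
  ⟨(Scheme.Modules.pullbackCongr h).symm.app M ≪≫ (Scheme.Modules.pullbackComp _ _).symm.app M ≪≫
    (Scheme.Modules.pullback u).mapIso e.some ≪≫ Scheme.Modules.pullbackUnitIso u⟩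

variable (R : Type u) [CommRing R]

/-- Base change to `Localization.Away g` of `tilde M`. -/
def pullbackTildeAway (g : R) (M : ModuleCat.{u} R) :
    (Scheme.Modules.pullback (Spec.map
      (CommRingCat.ofHom (algebraMap R (Localization.Away g))))).obj
        (tilde (R := CommRingCat.of R) M) ≅
      tilde (R := CommRingCat.of (Localization.Away g))
        (ModuleCat.of (Localization.Away g) (Localization.Away g ⊗[R] M)) :=
  pullbackTilde (CommRingCat.ofHom (algebraMap R (Localization.Away g))) M ≪≫
    (tilde.functor (CommRingCat.of (Localization.Away g))).mapIso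
      (extendScalarsIso R (Localization.Away g) M)

/-- An invertible sheaf on an affine scheme is `tilde` of an invertible module. -/
theorem isInvertible_iso_tilde {M : (Spec (CommRingCat.of R)).Modules}
    (hM : Scheme.Modules.IsInvertible M) :
    ∃ (P : ModuleCat.{u} R), Module.Invertible R P ∧
      Nonempty (M ≅ tilde (R := CommRingCat.of R) P) := by
  have := isInvertible_isQuasicoherent hM
  let P : ModuleCat.{u} R := (moduleSpecΓFunctor (R := CommRingCat.of R)).obj M
  let eM : tilde (R := CommRingCat.of R) P ≅ M :=
    @asIso _ _ _ _ (Scheme.Modules.fromTildeΓ (R := CommRingCat.of R) M)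
      (Scheme.Modules.isIso_fromTildeΓ_of_isQuasicoherent (R := CommRingCat.of R) M)
  refine ⟨P, ?_, ⟨eM.symm⟩⟩
  let s : Set R := {g | ∃ U : (Spec (CommRingCat.of R)).Opens,
    PrimeSpectrum.basicOpen g ≤ U ∧
      Nonempty ((Scheme.Modules.pullback U.ι).obj M ≅
        SheafOfModules.unit U.toScheme.ringCatSheaf)}
  -- basic opens on which `M` is trivial cover; there `P` is free of rank one
  have hs : Ideal.span s = ⊤ := by
    rw [← PrimeSpectrum.iSup_basicOpen_eq_top_iff', eq_top_iff]
    intro x _
    obtain ⟨U, hxU, hU⟩ := hM.exists_trivialization x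
    obtain ⟨_, ⟨_, ⟨g, rfl⟩, rfl⟩, hxg, hgU⟩ :=
      PrimeSpectrum.isBasis_basic_opens.exists_subset_of_mem_open hxU U.2
    exact TopologicalSpace.Opens.mem_iSup.mpr ⟨g, TopologicalSpace.Opens.mem_iSup.mpr
      ⟨⟨U, hgU, hU⟩, hxg⟩⟩
  have key : ∀ g : s, Nonempty (Localization.Away g.1 ⊗[R] P ≃ₗ[Localization.Away g.1]
      Localization.Away g.1) := by
    rintro ⟨g, U, hgU, hU⟩
    let p := Spec.map (CommRingCat.ofHom (algebraMap R (Localization.Away g)))
    have hp : (basicOpenIsoSpecAway (R := CommRingCat.of R) g).inv ≫
        (Spec (CommRingCat.of R)).homOfLE hgU ≫ U.ι = p := by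
      rw [Scheme.homOfLE_ι, Iso.inv_comp_eq]
      exact (basicOpenIsoSpecAway_hom_SpecMap (R := CommRingCat.of R) g).symm
    obtain ⟨eu⟩ := pullback_iso_unit_of_factor _ U.ι p (by rw [Category.assoc, hp]) hU
    let i : tilde (R := CommRingCat.of (Localization.Away g))
        (ModuleCat.of (Localization.Away g) (Localization.Away g ⊗[R] P)) ≅
        tilde (R := CommRingCat.of (Localization.Away g))
          (ModuleCat.of (Localization.Away g) (Localization.Away g)) :=
      (pullbackTildeAway R g P).symm ≪≫ (Scheme.Modules.pullback p).mapIso eM ≪≫ eu ≪≫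
        (tildeSelf (R := CommRingCat.of (Localization.Away g))).symm
    exact ⟨(tilde.fullyFaithfulFunctor.preimageIso i).toLinearEquiv⟩
  let e := fun g : s ↦ (key g).some
  let φ : ∀ g : s, P →ₗ[R] Localization.Away g.1 := fun g ↦
    ((e g).restrictScalars R).toLinearMap ∘ₗ TensorProduct.mk R (Localization.Away g.1) P 1
  have : ∀ g : s, IsLocalizedModule (Submonoid.powers g.1) (φ g) := fun g ↦
    haveI : IsLocalizedModule (Submonoid.powers g.1)
        (TensorProduct.mk R (Localization.Away g.1) P 1) :=
      (isLocalizedModule_iff_isBaseChange (Submonoid.powers g.1) (Localization.Away g.1) _).mpr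
        (TensorProduct.isBaseChange R P (Localization.Away g.1))
    IsLocalizedModule.of_linearEquiv _ _ _
  exact invertible_of_locallyTrivial s hs φ

/-- `tilde` of an invertible module is an invertible sheaf. -/
theorem isInvertible_tilde (P : ModuleCat.{u} R) [Module.Invertible R P] :
    Scheme.Modules.IsInvertible (tilde (R := CommRingCat.of R) P) := by
  refine ⟨fun x ↦ ?_⟩
  obtain ⟨s, hs, hfree⟩ := Module.Invertible.exists_finset_free_localization (R := R) (M := P)
  rw [← PrimeSpectrum.iSup_basicOpen_eq_top_iff', eq_top_iff] at hs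
  obtain ⟨g, hg⟩ := TopologicalSpace.Opens.mem_iSup.mp (hs (show x ∈ ⊤ from trivial))
  obtain ⟨hgs, hxg⟩ := TopologicalSpace.Opens.mem_iSup.mp hg
  refine ⟨PrimeSpectrum.basicOpen g, hxg, ?_⟩
  have := hfree g hgs
  have hb : IsBaseChange (Localization.Away g)
      (LocalizedModule.mkLinearMap (Submonoid.powers g) P) :=
    LocalizedModule.isBaseChange _ _
  have : Module.Invertible (Localization.Away g) (LocalizedModule.Away g P) :=
    Module.Invertible.of_isLocalization (Submonoid.powers g)
      (LocalizedModule.mkLinearMap (Submonoid.powers g) P)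
  obtain ⟨e⟩ := (Module.Invertible.free_iff_linearEquiv
    (R := Localization.Away g) (M := LocalizedModule.Away g P)).mp inferInstance
  refine pullback_iso_unit_of_factor (basicOpenIsoSpecAway (R := CommRingCat.of R) g).hom
    (Spec.map (CommRingCat.ofHom (algebraMap R (Localization.Away g)))) _
    (basicOpenIsoSpecAway_hom_SpecMap (R := CommRingCat.of R) g) ⟨?_⟩
  exact pullbackTildeAway R g P ≪≫
    (tilde.functor (CommRingCat.of (Localization.Away g))).mapIso
      ((hb.equiv.trans e).toModuleIso) ≪≫ tildeSelf

end

end Fermat.PIC
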