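import Fermat.Agent.PIC.Sections
import Mathlib

/-!
# Local generators of invertible sheaves of modules

`IsGen` says that a section freely generates over all smaller opens; `exists_isGen` gives one near
every point of an invertible sheaf.
-/

set_option autoImplicit false

universe u

open CategoryTheory CategoryTheory.Limits AlgebraicGeometry Opposite

namespace Fermat.PIC

noncomputable section

variable {X Y : Scheme.{u}}

/-- The structure sheaf as an object of `X.Modules`. -/
abbrev unitMod (X : Scheme.{u}) : X.Modules := SheafOfModules.unit X.ringCatSheaf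

/-- Restriction of a section. -/
def sRes (M : X.Modules) {U V : X.Opens} (h : V ≤ U) : Γ(M, U) →+ Γ(M, V) :=
  (M.presheaf.map (homOfLE h).op).hom

/-- Restrictions compose. -/
lemma sRes_sRes (M : X.Modules) {U V W : X.Opens} (h : V ≤ U) (h' : W ≤ V) (x : Γ(M, U)) :
    sRes M h' (sRes M h x) = sRes M (h'.trans h) x :=
  (congr($(M.presheaf.map_comp (homOfLE h).op (homOfLE h').op) x)).symm

/-- Restriction to the same open is the identity. -/
lemma sRes_self (M : X.Modules) {U : X.Opens} (h : U ≤ U) (x : Γ(M, U)) : sRes M h x = x :=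
  congr($(M.presheaf.map_id (op U)) x)

/-- Restriction is semilinear. -/
lemma sRes_smul (M : X.Modules) {U V : X.Opens} (h : V ≤ U) (r : Γ(X, U)) (x : Γ(M, U)) :
    sRes M h (r • x) = X.presheaf.map (homOfLE h).op r • sRes M h x :=
  M.map_smul (homOfLE h) r x

/-- Morphisms of sheaves commute with restriction. -/
lemma app_sRes {M N : X.Modules} (φ : M ⟶ N) {U V : X.Opens} (h : V ≤ U) (x : Γ(M, U)) :
    φ.app V (sRes M h x) = sRes N h (φ.app U x) :=
  congr($(φ.mapPresheaf.naturality (homOfLE h).op) x)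

/-- `s` freely generates `M` over every open subset of `W`. -/
def IsGen (M : X.Modules) (W : X.Opens) (s : Γ(M, W)) : Prop :=
  ∀ (V : X.Opens) (h : V ≤ W), Function.Bijective fun r : Γ(X, V) ↦ r • sRes M h s

/-- A generator restricts to generators on smaller opens. -/
lemma IsGen.mono {M : X.Modules} {U W : X.Opens} {s : Γ(M, W)} (hs : IsGen M W s) (h : U ≤ W) :
    IsGen M U (sRes M h s) := fun V hV ↦ by
  simpa only [sRes_sRes] using hs V (hV.trans h)

/-- An isomorphism carries generators to generators. -/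
lemma IsGen.of_iso {M N : X.Modules} (e : M ≅ N) {W : X.Opens} {s : Γ(M, W)} (hs : IsGen M W s) :
    IsGen N W (e.hom.app W s) := fun V hV ↦ by
  have h : (fun r : Γ(X, V) ↦ r • sRes N hV (e.hom.app W s)) =
      (e.hom.app V) ∘ fun r : Γ(X, V) ↦ r • sRes M hV s := by
    funext r
    simp only [Function.comp_apply, Scheme.Modules.Hom.app_smul, app_sRes]
  rw [h]
  exact (ConcreteCategory.bijective_of_isIso (e.hom.app V)).comp (hs V hV)

/-- The unit section restricts to the unit section. -/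
lemma oneSec_res {U V : X.Opens} (h : V ≤ U) :
    sRes (unitMod X) h (oneSec X U) = oneSec X V :=
  (X.presheaf.map (homOfLE h).op).hom.map_one

/-- The unit section generates the structure sheaf. -/
lemma isGen_oneSec (W : X.Opens) :
    IsGen (unitMod X) W (oneSec X W) := fun V hV ↦ by
  have h : (fun r : Γ(X, V) ↦
      r • sRes (unitMod X) hV (oneSec X W)) = id := by
    funext r
    rw [oneSec_res]
    exact mul_one r
  rw [h]
  exact Function.bijective_id

/-- The morphism from the structure sheaf given by a global section. -/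
def homOfSec (M : X.Modules) (s : Γ(M, ⊤)) :
    (unitMod X) ⟶ M :=
  (SheafOfModules.unitHomEquiv M).symm (PresheafOfModules.sectionsMk (M := M.val)
    (fun V ↦ sRes M (le_top (a := V.unop)) s)
    (fun _ _ f ↦ sRes_sRes M _ (leOfHom f.unop) s))

/-- The morphism of a section sends the unit section to the section. -/
lemma homOfSec_oneSec (M : X.Modules) (s : Γ(M, ⊤)) (V : X.Opens) :
    (homOfSec M s).app V (oneSec X V) = sRes M le_top s := by
  have h := (SheafOfModules.unitHomEquiv M).apply_symm_apply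
    (PresheafOfModules.sectionsMk (M := M.val) (fun V ↦ sRes M (le_top (a := V.unop)) s)
      (fun _ V f ↦ sRes_sRes M _ (leOfHom f.unop) s))
  exact congrArg (fun t : M.sections ↦ t.1 (op V)) h

/-- The morphism of a section is multiplication with that section. -/
lemma homOfSec_app (M : X.Modules) (s : Γ(M, ⊤)) (V : X.Opens) (r : Γ(X, V)) :
    (homOfSec M s).app V r = r • sRes M le_top s := by
  conv_lhs => rw [show (r : Γ((unitMod X), V)) =
    r • oneSec X V from (mul_one r).symm]
  rw [Scheme.Modules.Hom.app_smul, homOfSec_oneSec]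

/-- The morphism of a global generator is an isomorphism. -/
lemma isIso_homOfSec {M : X.Modules} {s : Γ(M, ⊤)} (hs : IsGen M ⊤ s) : IsIso (homOfSec M s) := by
  rw [Scheme.Modules.Hom.isIso_iff_isIso_app]
  intro V
  rw [ConcreteCategory.isIso_iff_bijective]
  have h : ⇑((homOfSec M s).app V) = fun r : Γ(X, V) ↦ r • sRes M le_top s := by
    funext r
    exact homOfSec_app M s V r
  rw [h]
  exact hs V le_top

/-- Pullback of sections commutes with restriction. -/
lemma sPull_sRes (f : X ⟶ Y) (M : Y.Modules) {U V : Y.Opens} (h : V ≤ U) (x : Γ(M, U)) :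
    sPull f M V (sRes M h x) =
      sRes ((Scheme.Modules.pullback f).obj M) (f.preimage_mono h) (sPull f M U x) :=
  (sPull_map f M h x).symm

/-- Being a generator can be tested after an open immersion. -/
lemma isGen_sPull_iff_of_isOpenImmersion (j : X ⟶ Y) [IsOpenImmersion j] (M : Y.Modules)
    {W : Y.Opens} (hW : W ≤ j.opensRange) (s : Γ(M, W)) :
    IsGen M W s ↔ IsGen ((Scheme.Modules.pullback j).obj M) (j ⁻¹ᵁ W) (sPull j M W s) := by
  have key : ∀ (V : Y.Opens) (hV : V ≤ W),
      Function.Bijective (fun r : Γ(Y, V) ↦ r • sRes M hV s) ↔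
      Function.Bijective (fun r : Γ(X, j ⁻¹ᵁ V) ↦
        r • sRes ((Scheme.Modules.pullback j).obj M) (j.preimage_mono hV) (sPull j M W s)) := by
    intro V hV
    have hb := sPull_bijective_of_isOpenImmersion j M V (hV.trans hW)
    have ha : Function.Bijective (j.app V) := by
      have := j.isIso_app V (hV.trans hW)
      exact ConcreteCategory.bijective_of_isIso _
    have h : (fun r : Γ(X, j ⁻¹ᵁ V) ↦
        r • sRes ((Scheme.Modules.pullback j).obj M) (j.preimage_mono hV) (sPull j M W s)) ∘ j.app V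
          = sPull j M V ∘ fun r : Γ(Y, V) ↦ r • sRes M hV s := by
      funext r
      simp only [Function.comp_apply, sPull_smul, sPull_sRes]
    refine ⟨fun h1 ↦ ?_, fun h1 ↦ ?_⟩
    · rw [← Function.Bijective.of_comp_iff _ ha, h]
      exact hb.comp h1
    · rw [← Function.Bijective.of_comp_iff' hb, ← h]
      exact h1.comp ha
  refine ⟨fun h V hV ↦ ?_, fun h V hV ↦ (key V hV).mpr (h _ _)⟩
  have e : j ⁻¹ᵁ (j ''ᵁ V) = V := j.preimage_image_eq V
  have hV' : j ''ᵁ V ≤ W := by
    intro y hy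
    obtain ⟨x, hx, rfl⟩ := hy
    exact hV hx
  have h1 := (key _ hV').mp (h _ hV')
  have h2 : ∀ (V' : X.Opens) (_ : V' = V) (hle : V' ≤ j ⁻¹ᵁ W),
      Function.Bijective (fun r : Γ(X, V') ↦ r • sRes ((Scheme.Modules.pullback j).obj M) hle
        (sPull j M W s)) →
      Function.Bijective (fun r : Γ(X, V) ↦ r • sRes ((Scheme.Modules.pullback j).obj M) hV
        (sPull j M W s)) := by
    rintro _ rfl _ hh
    exact hh
  exact h2 _ e _ h1

/-- Equal morphisms pull back the same sections to generators. -/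
lemma isGen_sPull_congr {f g : X ⟶ Y} (h : f = g) (M : Y.Modules) (U : Y.Opens) (s : Γ(M, U)) :
    IsGen ((Scheme.Modules.pullback f).obj M) (f ⁻¹ᵁ U) (sPull f M U s) ↔
      IsGen ((Scheme.Modules.pullback g).obj M) (g ⁻¹ᵁ U) (sPull g M U s) := by
  subst h
  rfl

/-- Being a generator is compatible with composite pullbacks. -/
lemma isGen_sPull_comp_iff {Z : Scheme.{u}} (f : X ⟶ Y) (g : Y ⟶ Z) (M : Z.Modules)
    (U : Z.Opens) (s : Γ(M, U)) :
    IsGen ((Scheme.Modules.pullback f).obj ((Scheme.Modules.pullback g).obj M)) (f ⁻¹ᵁ (g ⁻¹ᵁ U))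
        (sPull f _ (g ⁻¹ᵁ U) (sPull g M U s)) ↔
      IsGen ((Scheme.Modules.pullback (f ≫ g)).obj M) ((f ≫ g) ⁻¹ᵁ U) (sPull (f ≫ g) M U s) := by
  let e := (Scheme.Modules.pullbackComp f g).app M
  refine ⟨fun h ↦ ?_, fun h ↦ ?_⟩
  · have h1 := h.of_iso e
    rw [show e.hom = (Scheme.Modules.pullbackComp f g).hom.app M from rfl, sPull_comp] at h1
    exact h1
  · rw [← sPull_comp] at h
    have h1 : IsGen ((Scheme.Modules.pullback f).obj ((Scheme.Modules.pullback g).obj M))
        (f ⁻¹ᵁ (g ⁻¹ᵁ U)) (e.symm.hom.app (f ⁻¹ᵁ (g ⁻¹ᵁ U))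
          (((Scheme.Modules.pullbackComp f g).hom.app M).app (f ⁻¹ᵁ (g ⁻¹ᵁ U))
            (sPull f _ (g ⁻¹ᵁ U) (sPull g M U s)))) := IsGen.of_iso e.symm h
    rwa [show e.symm.hom.app (f ⁻¹ᵁ (g ⁻¹ᵁ U))
        (((Scheme.Modules.pullbackComp f g).hom.app M).app (f ⁻¹ᵁ (g ⁻¹ᵁ U))
          (sPull f _ (g ⁻¹ᵁ U) (sPull g M U s))) = sPull f _ (g ⁻¹ᵁ U) (sPull g M U s) from
      ConcreteCategory.congr_hom (congrArg
        (fun φ : (Scheme.Modules.pullback f).obj ((Scheme.Modules.pullback g).obj M) ⟶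
          (Scheme.Modules.pullback f).obj ((Scheme.Modules.pullback g).obj M) ↦
            φ.app (f ⁻¹ᵁ (g ⁻¹ᵁ U))) e.hom_inv_id) _] at h1

/-- An invertible sheaf has a generator near every point. -/
lemma exists_isGen {M : X.Modules} (hM : Scheme.Modules.IsInvertible M) (x : X) :
    ∃ (U : X.Opens) (s : Γ(M, U)), x ∈ U ∧ IsGen M U s := by
  obtain ⟨U, hx, ⟨e⟩⟩ := hM.exists_trivialization x
  obtain ⟨s, hs⟩ := (sPull_bijective_of_isOpenImmersion U.ι M U U.opensRange_ι.ge).2
    (e.inv.app (U.ι ⁻¹ᵁ U) (oneSec _ _))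
  refine ⟨U, s, hx, ?_⟩
  rw [isGen_sPull_iff_of_isOpenImmersion U.ι M U.opensRange_ι.ge s, hs]
  exact (isGen_oneSec _).of_iso e.symm

/-- Generators pull back to generators. -/
lemma IsGen.sPull {M : Y.Modules} {W : Y.Opens} {s : Γ(M, W)} (hs : IsGen M W s) (f : X ⟶ Y) :
    IsGen ((Scheme.Modules.pullback f).obj M) (f ⁻¹ᵁ W) (Fermat.PIC.sPull f M W s) := by
  let i := W.ι
  let ψ := f ∣_ W
  let i' := (f ⁻¹ᵁ W).ι
  rw [isGen_sPull_iff_of_isOpenImmersion i' _ (f ⁻¹ᵁ W).opensRange_ι.ge]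
  rw [isGen_sPull_comp_iff i' f, isGen_sPull_congr (morphismRestrict_ι f W).symm,
    ← isGen_sPull_comp_iff ψ i]
  have hi := (isGen_sPull_iff_of_isOpenImmersion i M W.opensRange_ι.ge s).mp hs
  let t := Fermat.PIC.sPull i M W s
  let t' : Γ((Scheme.Modules.pullback i).obj M, ⊤) :=
    sRes _ (show (⊤ : W.toScheme.Opens) ≤ i ⁻¹ᵁ W from (W.ι_preimage_self).ge) t
  have : IsIso (homOfSec _ t') := isIso_homOfSec (hi.mono _)
  let e : (unitMod W.toScheme) ≅
      (Scheme.Modules.pullback i).obj M := @asIso _ _ _ _ (homOfSec _ t') this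
  have key : e.hom.app (i ⁻¹ᵁ W) (oneSec _ _) = t := by
    change (homOfSec _ t').app (i ⁻¹ᵁ W) (oneSec _ _) = t
    rw [homOfSec_oneSec, sRes_sRes, sRes_self]
  have h2 := (isGen_oneSec (X := (f ⁻¹ᵁ W).toScheme) (ψ ⁻¹ᵁ (i ⁻¹ᵁ W))).of_iso
    ((Scheme.Modules.pullbackUnitIso ψ).symm ≪≫ (Scheme.Modules.pullback ψ).mapIso e)
  convert h2 using 1
  rw [Iso.trans_hom, Functor.mapIso_hom, Scheme.Modules.Hom.comp_app]
  change _ = ((Scheme.Modules.pullback ψ).map e.hom).app _
    ((Scheme.Modules.pullbackUnitIso ψ).inv.app _ (oneSec _ _))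
  rw [← sPull_one ψ]
  have h3 := congr($(congrArg (fun φ : _ ⟶ (Scheme.Modules.pullback ψ).obj
      (unitMod W.toScheme) ↦
    φ.app (ψ ⁻¹ᵁ (i ⁻¹ᵁ W))) (Scheme.Modules.pullbackUnitIso ψ).hom_inv_id)
      (Fermat.PIC.sPull ψ (unitMod W.toScheme) (i ⁻¹ᵁ W) (oneSec _ _)))
  refine (Eq.trans ?_ (congrArg _ h3.symm))
  exact ((sPull_natural ψ e.hom (i ⁻¹ᵁ W) (oneSec _ _)).trans (congrArg _ key)).symm

end

end Fermat.PIC
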