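import Fermat.Agent.PIC.AffineInvertible
import Fermat.Agent.PIC.Generator
import Mathlib

/-!
# Sections of invertible sheaves over affine opens, and their pullbacks

These sections form an invertible module (`invertible_sections`), and pulled back sections span
(`sPullLE_span`).
-/

set_option autoImplicit false

universe u

open CategoryTheory CategoryTheory.Limits AlgebraicGeometry TopologicalSpace

namespace Fermat.PIC

noncomputable section

variable {X Y : Scheme.{u}}

/-- Pullback to the spectrum of an affine open is linear over its functions. -/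
lemma sPull_fromSpec_smul {U : X.Opens} (hU : IsAffineOpen U) (M : X.Modules) {V : X.Opens}
    (h : V ≤ U) (r : Γ(X, U)) (x : Γ(M, V)) :
    sPull hU.fromSpec M V (X.presheaf.map (homOfLE h).op r • x) =
      (r • sPull hU.fromSpec M V x : Γ((Scheme.Modules.pullback hU.fromSpec).obj M,
        hU.fromSpec ⁻¹ᵁ V)) := by
  rw [sPull_smul, Scheme.Modules.smul_Spec_def]
  congr 1
  have h1 := congr($(hU.fromSpec.naturality (homOfLE h).op) r)
  refine h1.trans ?_
  simp only [CommRingCat.hom_comp, RingHom.coe_comp, Function.comp_apply]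
  rw [hU.fromSpec_app_self]
  simp only [CommRingCat.hom_comp, RingHom.coe_comp, Function.comp_apply]
  exact (congr($((Spec Γ(X, U)).presheaf.map_comp (eqToHom hU.fromSpec_preimage_self).op
    ((Opens.map hU.fromSpec.base).map (homOfLE h)).op) ((Scheme.ΓSpecIso Γ(X, U)).inv r))).symm

/-- Pullback to the spectrum of an affine open is bijective on sections inside it. -/
lemma sPull_fromSpec_bijective {U : X.Opens} (hU : IsAffineOpen U) (M : X.Modules) {V : X.Opens}
    (h : V ≤ U) : Function.Bijective (sPull hU.fromSpec M V) :=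
  sPull_bijective_of_isOpenImmersion hU.fromSpec M V (h.trans hU.opensRange_fromSpec.ge)

/-- Sections over an affine open as global sections of the pullback to its spectrum. -/
def topEquiv {W : X.Opens} (hW : IsAffineOpen W) (M : X.Modules) :
    Γ(M, W) ≃ₗ[Γ(X, W)] (moduleSpecΓFunctor (R := Γ(X, W))).obj
      ((Scheme.Modules.pullback hW.fromSpec).obj M) :=
  LinearEquiv.ofBijective
    { toFun := fun x ↦ sRes _ hW.fromSpec_preimage_self.ge (sPull hW.fromSpec M W x)
      map_add' := fun x y ↦ by rw [map_add, map_add]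
      map_smul' := fun r x ↦ by
        have h := sPull_fromSpec_smul hW M le_rfl r x
        rw [show (homOfLE (le_refl W)).op = 𝟙 _ from rfl, X.presheaf.map_id] at h
        change sRes _ _ (sPull hW.fromSpec M W (r • x)) = _
        erw [h]
        exact Scheme.Modules.map_smul_Spec
          (M := (Scheme.Modules.pullback hW.fromSpec).obj M)
          (homOfLE hW.fromSpec_preimage_self.ge).op r _ } <| by
    change Function.Bijective
      (sRes _ hW.fromSpec_preimage_self.ge ∘ sPull hW.fromSpec M W)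
    refine Function.Bijective.comp ?_ (sPull_fromSpec_bijective hW M le_rfl)
    have : IsIso (homOfLE hW.fromSpec_preimage_self.ge).op :=
      ⟨⟨(homOfLE hW.fromSpec_preimage_self.le).op, Subsingleton.elim _ _, Subsingleton.elim _ _⟩⟩
    exact ConcreteCategory.bijective_of_isIso
      (((Scheme.Modules.pullback hW.fromSpec).obj M).presheaf.map
        (homOfLE hW.fromSpec_preimage_self.ge).op)

/-- A section becomes the restriction of its pullback to the spectrum. -/
lemma topEquiv_apply {W : X.Opens} (hW : IsAffineOpen W) (M : X.Modules) (x : Γ(M, W)) :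
    topEquiv hW M x = sRes _ hW.fromSpec_preimage_self.ge (sPull hW.fromSpec M W x) := rfl

/-- The sections of an invertible sheaf over an affine open form an invertible module. -/
lemma invertible_sections {M : X.Modules} (hM : Scheme.Modules.IsInvertible M) {U : X.Opens}
    (hU : IsAffineOpen U) : Module.Invertible Γ(X, U) Γ(M, U) := by
  let R := Γ(X, U)
  let N := (Scheme.Modules.pullback hU.fromSpec).obj M
  obtain ⟨P, hP, ⟨e⟩⟩ := isInvertible_iso_tilde R
    (Scheme.Modules.IsInvertible.pullback hU.fromSpec hM :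
      Scheme.Modules.IsInvertible (X := Spec (CommRingCat.of R)) N)
  let e1 : (moduleSpecΓFunctor (R := CommRingCat.of R)).obj N ≅ P :=
    (moduleSpecΓFunctor (R := CommRingCat.of R)).mapIso e ≪≫
      (tilde.isoTop (R := CommRingCat.of R) P).symm
  exact Module.Invertible.congr ((topEquiv hU M).trans e1.toLinearEquiv).symm

/-- A section over a basic open extends after multiplying by a power of the function. -/
lemma exists_pow_smul_eq_sRes {M : X.Modules} (hM : Scheme.Modules.IsInvertible M) {U : X.Opens}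
    (hU : IsAffineOpen U) (r : Γ(X, U)) (s : Γ(M, X.basicOpen r)) :
    ∃ (n : ℕ) (t : Γ(M, U)),
      sRes M (X.basicOpen_le r) t = X.presheaf.map (homOfLE (X.basicOpen_le r)).op (r ^ n) • s := by
  let R := Γ(X, U)
  let N : (Spec (CommRingCat.of R)).Modules := (Scheme.Modules.pullback hU.fromSpec).obj M
  have hN : N.IsQuasicoherent :=
    isInvertible_isQuasicoherent (Scheme.Modules.IsInvertible.pullback hU.fromSpec hM)
  have hl := (isIso_fromTildeΓ_iff_isLocalizing (R := CommRingCat.of R) N).mp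
    (Scheme.Modules.isIso_fromTildeΓ_of_isQuasicoherent (R := CommRingCat.of R) N) r
  let V := X.basicOpen r
  have e : hU.fromSpec ⁻¹ᵁ V = PrimeSpectrum.basicOpen r := hU.fromSpec_preimage_basicOpen r
  obtain ⟨⟨t, ⟨_, n, rfl⟩⟩, ht⟩ := @IsLocalizedModule.surj _ _ _ _ _ _ _ _
    (Submonoid.powers (M := R) r) _ hl (sRes N e.ge (sPull hU.fromSpec M V s))
  obtain ⟨t', ht'⟩ := (sPull_fromSpec_bijective hU M le_rfl).2 (sRes N le_top t)
  refine ⟨n, t', (sPull_fromSpec_bijective hU M (X.basicOpen_le r)).1 ?_⟩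
  rw [sPull_sRes, ht', sPull_fromSpec_smul, sRes_sRes]
  have h2 := congrArg (sRes N e.le) ht
  have h3 : sRes N e.le ((r ^ n : R) • sRes N e.ge (sPull hU.fromSpec M V s)) =
      ((r ^ n : R) • sPull hU.fromSpec M V s) := by
    refine (Scheme.Modules.map_smul_Spec (M := N) (homOfLE e.le).op _ _).trans ?_
    exact congrArg _ ((sRes_sRes N e.ge e.le _).trans (sRes_self N _ _))
  replace h2 := (show _ = _ from h3).symm.trans h2
  refine Eq.trans ?_ h2.symm
  exact (sRes_sRes N _ e.le t).symm

/-- A section vanishing on a basic open is killed by a power of the function. -/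
lemma exists_pow_smul_eq_zero {M : X.Modules} (hM : Scheme.Modules.IsInvertible M) {U : X.Opens}
    (hU : IsAffineOpen U) (r : Γ(X, U)) (t : Γ(M, U))
    (h : sRes M (X.basicOpen_le r) t = 0) : ∃ n : ℕ, r ^ n • t = 0 := by
  let R := Γ(X, U)
  let N : (Spec (CommRingCat.of R)).Modules := (Scheme.Modules.pullback hU.fromSpec).obj M
  have hN : N.IsQuasicoherent :=
    isInvertible_isQuasicoherent (Scheme.Modules.IsInvertible.pullback hU.fromSpec hM)
  have hl := (isIso_fromTildeΓ_iff_isLocalizing (R := CommRingCat.of R) N).mp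
    (Scheme.Modules.isIso_fromTildeΓ_of_isQuasicoherent (R := CommRingCat.of R) N) r
  have e : hU.fromSpec ⁻¹ᵁ X.basicOpen r = PrimeSpectrum.basicOpen r :=
    hU.fromSpec_preimage_basicOpen r
  let e' : hU.fromSpec ⁻¹ᵁ U = ⊤ := hU.fromSpec_preimage_self
  let T : Γ(N, (⊤ : (Spec (CommRingCat.of R)).Opens)) := sRes N e'.ge (sPull hU.fromSpec M U t)
  have h0 : sRes N (le_top (a := PrimeSpectrum.basicOpen r)) T = 0 := by
    have h1 := congrArg (sPull hU.fromSpec M (X.basicOpen r)) h
    rw [sPull_sRes, map_zero] at h1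
    have h2 := congrArg (sRes N e.ge) h1
    rw [sRes_sRes, map_zero] at h2
    exact (sRes_sRes N _ _ _).trans h2
  obtain ⟨⟨_, n, rfl⟩, hn⟩ :=
    @IsLocalizedModule.exists_of_eq _ _ _ _ _ _ _ _
      (Submonoid.powers (M := R) r) _ hl T 0 (h0.trans (map_zero _).symm)
  refine ⟨n, (sPull_fromSpec_bijective hU M le_rfl).1 ?_⟩
  rw [map_zero]
  have h2 := congrArg (sRes N (le_top (a := hU.fromSpec ⁻¹ᵁ U))) hn
  rw [smul_zero] at h2
  replace h2 := h2.trans (map_zero _)
  refine Eq.trans ?_ h2
  have h3 := sPull_fromSpec_smul hU M le_rfl (r ^ n) t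
  rw [show (homOfLE (le_refl U)).op = 𝟙 _ from rfl, X.presheaf.map_id] at h3
  refine (show _ = _ from h3).trans ?_
  refine Eq.trans ?_ (Scheme.Modules.map_smul_Spec (M := N) (homOfLE le_top).op _ _).symm
  exact congrArg _ (((sRes_sRes N e'.ge le_top _).trans (sRes_self N _ _)).symm)

/-- Pullback of sections with a smaller target open. -/
def sPullLE (f : X ⟶ Y) (M : Y.Modules) {U : Y.Opens} {V : X.Opens} (e : V ≤ f ⁻¹ᵁ U) :
    Γ(M, U) →+ Γ((Scheme.Modules.pullback f).obj M, V) :=
  (sRes _ e).comp (sPull f M U)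

/-- Pullback to a smaller target open is semilinear. -/
lemma sPullLE_smul (f : X ⟶ Y) (M : Y.Modules) {U : Y.Opens} {V : X.Opens} (e : V ≤ f ⁻¹ᵁ U)
    (r : Γ(Y, U)) (x : Γ(M, U)) :
    sPullLE f M e (r • x) = f.appLE U V e r • sPullLE f M e x := by
  simp only [sPullLE, AddMonoidHom.coe_comp, Function.comp_apply, sPull_smul, sRes_smul]
  rfl

/-- Pulled back sections span over an affine open. -/
theorem sPullLE_span {M : Y.Modules} (hM : Scheme.Modules.IsInvertible M) (f : X ⟶ Y)
    {U : Y.Opens} (hU : IsAffineOpen U) {V : X.Opens} (hV : IsAffineOpen V)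
    (e : V ≤ f ⁻¹ᵁ U) :
    Submodule.span Γ(X, V) (Set.range (sPullLE f M e)) = ⊤ := by
  rw [eq_top_iff]
  rintro z -
  let P := Submodule.span Γ(X, V) (Set.range (sPullLE f M e))
  suffices h : (P.colon {z}) = ⊤ by
    have h1 : (1 : Γ(X, V)) ∈ P.colon {z} := h ▸ trivial
    simpa [Submodule.mem_colon] using h1
  rw [← Ideal.radical_eq_top]
  by_contra hne
  obtain ⟨p, hp, hle⟩ := Ideal.exists_le_maximal _ hne
  have := hp.isPrime
  let y : X := hV.fromSpec ⟨p, inferInstance⟩
  have hyV : y ∈ V := by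
    have := hV.opensRange_fromSpec
    exact this.le ⟨⟨p, inferInstance⟩, rfl⟩
  obtain ⟨W, s, hxW, hs⟩ := exists_isGen hM (f y)
  obtain ⟨r, hrW, hyr⟩ := hU.exists_basicOpen_le (V := W) ⟨f y, hxW⟩ (e hyV)
  obtain ⟨n, t, ht⟩ := exists_pow_smul_eq_sRes hM hU r (sRes M hrW s)
  obtain ⟨g, hg, hyg⟩ := hV.exists_basicOpen_le (V := f ⁻¹ᵁ Y.basicOpen r) ⟨y, hyr⟩ hyV
  -- the unit attached to `r` on `D(r)`
  obtain ⟨v, hv⟩ : IsUnit (Y.presheaf.map (homOfLE (Y.basicOpen_le r)).op (r ^ n)) := by
    rw [map_pow]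
    exact (RingedSpace.isUnit_res_basicOpen _ r).pow n
  have hgen := ((hs.mono hrW).sPull f) _ hg
  obtain ⟨c, hc⟩ := hgen.2 (sRes _ (X.basicOpen_le g) z)
  simp only at hc
  -- express the generator through `t`
  have hgt : sRes _ hg (sPull f M (Y.basicOpen r) (sRes M hrW s)) =
      X.presheaf.map (homOfLE hg).op (f.app _ (↑v⁻¹ : Γ(Y, Y.basicOpen r))) •
        sRes _ (X.basicOpen_le g) (sPullLE f M e t) := by
    have h1 : sRes M hrW s = (↑v⁻¹ : Γ(Y, Y.basicOpen r)) • sRes M (Y.basicOpen_le r) t := by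
      rw [ht, ← hv, ← mul_smul, Units.inv_mul, one_smul]
    rw [h1, sPull_smul, sRes_smul, sPull_sRes, sRes_sRes]
    simp only [sPullLE, AddMonoidHom.coe_comp, Function.comp_apply, sRes_sRes]
  rw [hgt, ← mul_smul] at hc
  have := hV.isLocalization_basicOpen g
  obtain ⟨⟨a, ⟨_, m, rfl⟩⟩, ha⟩ := IsLocalization.surj (Submonoid.powers g)
    (c * X.presheaf.map (homOfLE hg).op (f.app _ (↑v⁻¹ : Γ(Y, Y.basicOpen r))))
  have h0 : sRes _ (X.basicOpen_le g) (g ^ m • z - a • sPullLE f M e t) = 0 := by
    rw [map_sub, sRes_smul, sRes_smul, ← hc, ← mul_smul, sub_eq_zero]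
    congr 1
    rw [mul_comm]
    exact ha
  obtain ⟨l, hl⟩ := exists_pow_smul_eq_zero (hM.pullback f) hV g _ h0
  have hmem : g ^ (l + m) ∈ P.colon {z} := by
    rw [Submodule.mem_colon]
    intro w hw
    rw [Set.mem_singleton_iff.mp hw, pow_add, mul_smul]
    rw [smul_sub, sub_eq_zero] at hl
    rw [hl, ← mul_smul]
    exact P.smul_mem _ (Submodule.subset_span ⟨t, rfl⟩)
  have hgp : g ∈ p := hle ⟨l + m, hmem⟩
  have hyg' : (⟨p, inferInstance⟩ : PrimeSpectrum Γ(X, V)) ∈ hV.fromSpec ⁻¹ᵁ X.basicOpen g := hyg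
  rw [hV.fromSpec_preimage_basicOpen] at hyg'
  exact hyg' hgp

end

end Fermat.PIC
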