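import Fermat.Agent.PIC.AffineSections
import Mathlib

/-!
# Morphisms of sheaves of modules over an open subset, given on sections, and their gluing

`SecHom` is such a morphism; compatible ones glue (`glue`), and over everything they are morphisms
of sheaves (`toHom`).
-/

set_option autoImplicit false

universe u

open CategoryTheory CategoryTheory.Limits AlgebraicGeometry

namespace Fermat.PIC

noncomputable section

variable {X Y : Scheme.{u}}

/-- A morphism of sheaves of modules over the open set `W`, given on sections. -/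
structure SecHom (M N : X.Modules) (W : X.Opens) where
  /-- The map on sections over each open contained in `W`. -/
  app : ∀ (V : X.Opens), V ≤ W → (Γ(M, V) →+ Γ(N, V))
  /-- It is linear over the functions. -/
  smul : ∀ (V : X.Opens) (h : V ≤ W) (r : Γ(X, V)) (x : Γ(M, V)), app V h (r • x) = r • app V h x
  /-- It commutes with restriction. -/
  res : ∀ (V V' : X.Opens) (h : V ≤ W) (h' : V' ≤ V) (x : Γ(M, V)),
    sRes N h' (app V h x) = app V' (h'.trans h) (sRes M h' x)

namespace SecHom

variable {M N K : X.Modules} {W W' : X.Opens}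

/-- A morphism over an open is determined by its values on sections. -/
@[ext]
lemma ext {φ ψ : SecHom M N W} (h : ∀ V hV x, φ.app V hV x = ψ.app V hV x) : φ = ψ := by
  have : φ.app = ψ.app := funext fun V ↦ funext fun hV ↦ AddMonoidHom.ext (h V hV)
  cases φ
  cases ψ
  cases this
  rfl

/-- Restriction of a `SecHom`. -/
def restrict (φ : SecHom M N W) (h : W' ≤ W) : SecHom M N W' where
  app V hV := φ.app V (hV.trans h)
  smul _ _ := φ.smul _ _
  res _ _ _ h' := φ.res _ _ _ h'

/-- The restricted morphism acts as the original one. -/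
@[simp]
lemma restrict_app (φ : SecHom M N W) (h : W' ≤ W) (V : X.Opens) (hV : V ≤ W') (x : Γ(M, V)) :
    (φ.restrict h).app V hV x = φ.app V (hV.trans h) x := rfl

/-- Composition. -/
def comp (φ : SecHom M N W) (ψ : SecHom N K W) : SecHom M K W where
  app V hV := (ψ.app V hV).comp (φ.app V hV)
  smul V hV r x := by simp [φ.smul, ψ.smul]
  res V V' hV h' x := by simp [φ.res, ψ.res]

/-- A composite acts as the composite of the maps on sections. -/
@[simp]
lemma comp_app (φ : SecHom M N W) (ψ : SecHom N K W) (V : X.Opens) (hV : V ≤ W) (x : Γ(M, V)) :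
    (φ.comp ψ).app V hV x = ψ.app V hV (φ.app V hV x) := rfl

variable (M W) in
/-- Identity. -/
def id : SecHom M M W where
  app _ _ := AddMonoidHom.id _
  smul _ _ _ _ := rfl
  res _ _ _ _ _ := rfl

/-- The identity fixes every section. -/
@[simp]
lemma id_app (V : X.Opens) (hV : V ≤ W) (x : Γ(M, V)) : (id M W).app V hV x = x := rfl

/-- A global morphism as a `SecHom`. -/
def ofHom (φ : M ⟶ N) (W : X.Opens) : SecHom M N W where
  app V _ := (φ.app V).hom
  smul _ _ r x := Scheme.Modules.Hom.app_smul φ r x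
  res _ _ _ h' x := (app_sRes φ h' x).symm

/-- A `SecHom` over `⊤` is a morphism. -/
def toHom (φ : SecHom M N ⊤) : M ⟶ N :=
  SheafOfModules.Hom.mk <| PresheafOfModules.homMk
    { app := fun V ↦ AddCommGrpCat.ofHom (φ.app V.unop le_top)
      naturality := fun V V' f ↦ by
        ext x
        exact (φ.res V.unop V'.unop le_top (leOfHom f.unop) x).symm }
    (fun V r x ↦ φ.smul V.unop le_top r x)

/-- The morphism of a `SecHom` over everything acts as it does. -/
lemma toHom_app (φ : SecHom M N ⊤) (V : X.Opens) (x : Γ(M, V)) :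
    φ.toHom.app V x = φ.app V le_top x := rfl

section Glue

variable {ι : Type u} (U : ι → X.Opens) (φ : ∀ i, SecHom M N (U i))
  (hφ : ∀ i j V (hi : V ≤ U i) (hj : V ≤ U j) x, (φ i).app V hi x = (φ j).app V hj x)

include hφ in
/-- The images of a section under compatible local morphisms glue uniquely. -/
lemma existsUnique_glue (V : X.Opens) (hV : V ≤ iSup U) (x : Γ(M, V)) :
    ∃! y : Γ(N, V), ∀ i, sRes N (inf_le_left : V ⊓ U i ≤ V) y =
      (φ i).app (V ⊓ U i) inf_le_right (sRes M inf_le_left x) := by
  refine TopCat.Sheaf.existsUnique_gluing' ⟨_, N.isSheaf⟩ (fun i ↦ V ⊓ U i) V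
    (fun i ↦ homOfLE inf_le_left) ?_ _ ?_
  · rw [← inf_iSup_eq]
    exact le_inf le_rfl hV
  · intro i j
    change sRes N _ ((φ i).app _ _ _) = sRes N _ ((φ j).app _ _ _)
    rw [(φ i).res, (φ j).res, sRes_sRes, sRes_sRes]
    exact hφ i j _ _ _ _

/-- Sections agreeing on a cover are equal. -/
lemma eq_of_sRes_eq (V : X.Opens) (hV : V ≤ iSup U) {y y' : Γ(N, V)}
    (h : ∀ i, sRes N (inf_le_left : V ⊓ U i ≤ V) y = sRes N inf_le_left y') : y = y' := by
  refine TopCat.Sheaf.eq_of_locally_eq' ⟨_, N.isSheaf⟩ (fun i ↦ V ⊓ U i) V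
    (fun i ↦ homOfLE inf_le_left) ?_ y y' h
  rw [← inf_iSup_eq]
  exact le_inf le_rfl hV

/-- Gluing of compatible `SecHom`s. -/
def glue (hW : W ≤ iSup U) : SecHom M N W where
  app V hV := AddMonoidHom.mk' (fun x ↦ (existsUnique_glue U φ hφ V (hV.trans hW) x).choose)
    fun x y ↦ eq_of_sRes_eq U V (hV.trans hW) fun i ↦ by
      rw [map_add, (existsUnique_glue U φ hφ V (hV.trans hW) (x + y)).choose_spec.1 i,
        (existsUnique_glue U φ hφ V (hV.trans hW) x).choose_spec.1 i,
        (existsUnique_glue U φ hφ V (hV.trans hW) y).choose_spec.1 i, map_add, map_add]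
  smul V hV r x := eq_of_sRes_eq U V (hV.trans hW) fun i ↦ by
    simp only [AddMonoidHom.mk'_apply]
    rw [sRes_smul, (existsUnique_glue U φ hφ V (hV.trans hW) (r • x)).choose_spec.1 i,
      (existsUnique_glue U φ hφ V (hV.trans hW) x).choose_spec.1 i, sRes_smul, (φ i).smul]
  res V V' hV h' x := eq_of_sRes_eq U V' ((h'.trans hV).trans hW) fun i ↦ by
    simp only [AddMonoidHom.mk'_apply]
    rw [(existsUnique_glue U φ hφ V' ((h'.trans hV).trans hW) (sRes M h' x)).choose_spec.1 i,
      sRes_sRes, sRes_sRes]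
    have h1 := congrArg (sRes N (inf_le_inf_right (U i) h'))
      ((existsUnique_glue U φ hφ V (hV.trans hW) x).choose_spec.1 i)
    rw [sRes_sRes, (φ i).res, sRes_sRes] at h1
    exact h1

/-- The glued morphism agrees with each piece. -/
lemma glue_app (hW : W ≤ iSup U) (i : ι) (V : X.Opens) (hV : V ≤ W) (hVi : V ≤ U i)
    (x : Γ(M, V)) : (glue U φ hφ hW).app V hV x = (φ i).app V hVi x := by
  refine eq_of_sRes_eq U V (hV.trans hW) fun j ↦ ?_
  simp only [glue, AddMonoidHom.mk'_apply]
  rw [(existsUnique_glue U φ hφ V (hV.trans hW) x).choose_spec.1 j, (φ i).res]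
  exact hφ j i _ _ _ _

omit φ in
/-- Morphisms over an open agree if they agree on the members of a cover. -/
lemma ext_of_cover (hW : W ≤ iSup U) {ψ ψ' : SecHom M N W}
    (h : ∀ i V (hV : V ≤ W) (_ : V ≤ U i) x, ψ.app V hV x = ψ'.app V hV x) : ψ = ψ' := by
  ext V hV x
  refine eq_of_sRes_eq U V (hV.trans hW) fun i ↦ ?_
  rw [ψ.res, ψ'.res]
  exact h i _ _ inf_le_right _

end Glue

section Iso

/-- A pair of mutually inverse `SecHom`s over `⊤` gives an isomorphism. -/
def toIso (φ : SecHom M N ⊤) (ψ : SecHom N M ⊤) (h1 : φ.comp ψ = id M ⊤)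
    (h2 : ψ.comp φ = id N ⊤) : M ≅ N where
  hom := φ.toHom
  inv := ψ.toHom
  hom_inv_id := by
    ext V x
    exact congrArg (fun θ : SecHom M M ⊤ ↦ θ.app V le_top x) h1
  inv_hom_id := by
    ext V x
    exact congrArg (fun θ : SecHom N N ⊤ ↦ θ.app V le_top x) h2

end Iso

section OpenImmersion

variable (j : Y ⟶ X) [IsOpenImmersion j]

/-- The bijection on sections induced by an open immersion. -/
def sPullEquiv (M : X.Modules) (V : X.Opens) (h : V ≤ j.opensRange) :
    Γ(M, V) ≃+ Γ((Scheme.Modules.pullback j).obj M, j ⁻¹ᵁ V) :=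
  AddEquiv.ofBijective (sPull j M V) (sPull_bijective_of_isOpenImmersion j M V h)

/-- Transport of a morphism between pullbacks along an open immersion. -/
def ofPullback (φ : (Scheme.Modules.pullback j).obj M ⟶ (Scheme.Modules.pullback j).obj N) :
    SecHom M N j.opensRange where
  app V hV := ((sPullEquiv j N V hV).symm.toAddMonoidHom.comp (φ.app (j ⁻¹ᵁ V)).hom).comp
    (sPull j M V)
  smul V hV r x := by
    apply (sPullEquiv j N V hV).injective
    simp only [AddMonoidHom.coe_comp, AddEquiv.coe_toAddMonoidHom, Function.comp_apply,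
      AddEquiv.apply_symm_apply]
    rw [show ∀ y, sPullEquiv j N V hV (r • y) = j.app V r • sPullEquiv j N V hV y from
      fun y ↦ sPull_smul j N V r y, AddEquiv.apply_symm_apply, sPull_smul,
      Scheme.Modules.Hom.app_smul]
  res V V' hV h' x := by
    apply (sPullEquiv j N V' (h'.trans hV)).injective
    simp only [AddMonoidHom.coe_comp, AddEquiv.coe_toAddMonoidHom, Function.comp_apply,
      AddEquiv.apply_symm_apply]
    rw [show ∀ y, sPullEquiv j N V' (h'.trans hV) (sRes N h' y) =
      sRes _ (j.preimage_mono h') (sPullEquiv j N V hV y) from fun y ↦ sPull_sRes j N h' y,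
      AddEquiv.apply_symm_apply, sPull_sRes, app_sRes]

/-- The transported morphism pulls back to the given one. -/
lemma sPull_ofPullback
    (φ : (Scheme.Modules.pullback j).obj M ⟶ (Scheme.Modules.pullback j).obj N)
    (V : X.Opens) (hV : V ≤ j.opensRange) (x : Γ(M, V)) :
    sPull j N V ((ofPullback j φ).app V hV x) = φ.app (j ⁻¹ᵁ V) (sPull j M V x) :=
  (sPullEquiv j N V hV).apply_symm_apply _

end OpenImmersion

end SecHom

end

end Fermat.PIC
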