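import Fermat.Agent.PIC.SecHom
import Mathlib

/-!
# Gluing sheaves of modules given on a family of opens

`ModGlue` is the gluing datum, and `glued` the sheaf of its compatible families.
-/

set_option autoImplicit false

universe u

open CategoryTheory CategoryTheory.Limits AlgebraicGeometry Opposite

namespace Fermat.PIC

noncomputable section

variable {X : Scheme.{u}}

/-- Gluing data for sheaves of modules on a family of opens. -/
structure ModGlue (X : Scheme.{u}) where
  /-- The index type of the family of opens. -/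
  ι : Type u
  /-- The opens on which the pieces are given. -/
  U : ι → X.Opens
  /-- The pieces, only relevant over `U i`. -/
  M : ι → X.Modules
  /-- The transition map from the `i`th piece to the `j`th over `U i ⊓ U j`. -/
  φ : ∀ i j, SecHom (M i) (M j) (U i ⊓ U j)
  /-- A transition map to itself is the identity. -/
  φ_self : ∀ i V (hV : V ≤ U i ⊓ U i) x, (φ i i).app V hV x = x
  /-- The cocycle condition: transition maps compose on triple overlaps. -/
  φ_trans : ∀ i j k V (hij : V ≤ U i ⊓ U j) (hjk : V ≤ U j ⊓ U k) (hik : V ≤ U i ⊓ U k) x,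
    (φ j k).app V hjk ((φ i j).app V hij x) = (φ i k).app V hik x

namespace ModGlue

variable (D : ModGlue X)

/-- Functions on `V` act on the sections over `V ⊓ U i` through restriction. -/
instance (V : X.Opens) (i : D.ι) : Module Γ(X, V) Γ(D.M i, V ⊓ D.U i) :=
  Module.compHom _ (X.presheaf.map (homOfLE (inf_le_left : V ⊓ D.U i ≤ V)).op).hom

/-- Compatible families. -/
def family (V : X.Opens) : Submodule Γ(X, V) (∀ i, Γ(D.M i, V ⊓ D.U i)) :=
  { carrier := {x | ∀ i j (W : X.Opens) (hW : W ≤ V) (hi : W ≤ D.U i) (hj : W ≤ D.U j),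
      (D.φ i j).app W (le_inf hi hj) (sRes (D.M i) (le_inf hW hi) (x i)) =
        sRes (D.M j) (le_inf hW hj) (x j)}
    add_mem' := fun {a b} ha hb i j W hW hi hj ↦ by
      simp only [Pi.add_apply, map_add, ha i j W hW hi hj, hb i j W hW hi hj]
    zero_mem' := fun i j W hW hi hj ↦ by simp
    smul_mem' := fun r a ha i j W hW hi hj ↦ by
      change (D.φ i j).app W _
          (sRes (D.M i) _ (X.presheaf.map (homOfLE (inf_le_left : V ⊓ D.U i ≤ V)).op r • a i)) =
        sRes (D.M j) _ (X.presheaf.map (homOfLE (inf_le_left : V ⊓ D.U j ≤ V)).op r • a j)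
      rw [sRes_smul, sRes_smul, (D.φ i j).smul, ha i j W hW hi hj, ← CommRingCat.comp_apply,
        ← CommRingCat.comp_apply, ← X.presheaf.map_comp, ← X.presheaf.map_comp]
      rfl }

/-- Restriction of compatible families. -/
def familyRes {V V' : X.Opens} (h : V' ≤ V) : D.family V →+ D.family V' where
  toFun x := ⟨fun i ↦ sRes (D.M i) (inf_le_inf_right _ h) (x.1 i), fun i j W hW hi hj ↦ by
    rw [sRes_sRes, sRes_sRes]
    exact x.2 i j W (hW.trans h) hi hj⟩
  map_zero' := by
    apply Subtype.ext
    funext i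
    exact map_zero _
  map_add' x y := by
    apply Subtype.ext
    funext i
    exact map_add _ _ _

/-- A compatible family restricts componentwise. -/
lemma familyRes_apply {V V' : X.Opens} (h : V' ≤ V) (x : D.family V) (i : D.ι) :
    (D.familyRes h x).1 i = sRes (D.M i) (inf_le_inf_right _ h) (x.1 i) := rfl

/-- The glued presheaf of abelian groups. -/
def presheafAb : X.Opensᵒᵖ ⥤ Ab.{u} where
  obj V := AddCommGrpCat.of (D.family V.unop)
  map f := AddCommGrpCat.ofHom (D.familyRes (leOfHom f.unop))
  map_id V := by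
    ext x i
    exact sRes_self _ _ _
  map_comp f g := by
    ext x i
    exact (sRes_sRes _ _ _ _).symm

/-- Compatible families over an open form a module over its functions. -/
instance (V : X.Opensᵒᵖ) : Module (X.ringCatSheaf.obj.obj V) (D.presheafAb.obj V) :=
  inferInstanceAs (Module Γ(X, V.unop) (D.family V.unop))

/-- Restriction of compatible families is semilinear. -/
lemma presheafAb_smul ⦃V V' : X.Opensᵒᵖ⦄ (f : V ⟶ V') (r : X.ringCatSheaf.obj.obj V)
    (m : D.presheafAb.obj V) :
    D.presheafAb.map f (r • m) = X.ringCatSheaf.obj.map f r • D.presheafAb.map f m := by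
  apply Subtype.ext
  funext i
  change sRes (D.M i) _ (X.presheaf.map (homOfLE (inf_le_left : V.unop ⊓ D.U i ≤ V.unop)).op
      (show Γ(X, V.unop) from r) • m.1 i) =
    X.presheaf.map (homOfLE (inf_le_left : V'.unop ⊓ D.U i ≤ V'.unop)).op (X.presheaf.map f r) •
      sRes (D.M i) (inf_le_inf_right _ (leOfHom f.unop)) (m.1 i)
  rw [sRes_smul, ← CommRingCat.comp_apply, ← CommRingCat.comp_apply, ← X.presheaf.map_comp,
    ← X.presheaf.map_comp]
  rfl

/-- The glued presheaf of modules. -/
def presheaf : X.PresheafOfModules :=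
  PresheafOfModules.ofPresheaf (R := X.ringCatSheaf.obj) D.presheafAb D.presheafAb_smul

/-- The glued presheaf is a sheaf. -/
lemma isSheaf : TopCat.Presheaf.IsSheaf (D.presheafAb : TopCat.Presheaf Ab.{u} X) := by
  rw [TopCat.Presheaf.isSheaf_iff_isSheafUniqueGluing]
  intro κ U sf hsf
  have hcov : ∀ i, iSup U ⊓ D.U i ≤ ⨆ k, U k ⊓ D.U i := fun i ↦ (iSup_inf_eq U (D.U i)).le
  have hex : ∀ i, ∃! t : Γ(D.M i, iSup U ⊓ D.U i), ∀ k,
      sRes (D.M i) (inf_le_inf_right _ (le_iSup U k)) t = (sf k).1 i := by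
    intro i
    refine TopCat.Sheaf.existsUnique_gluing' ⟨_, (D.M i).isSheaf⟩ (fun k ↦ U k ⊓ D.U i)
      (iSup U ⊓ D.U i) (fun k ↦ homOfLE (inf_le_inf_right _ (le_iSup U k))) (hcov i) _ ?_
    intro k l
    have h1 : sRes (D.M i) (inf_le_inf_right _ inf_le_left) ((sf k).1 i) =
        sRes (D.M i) (inf_le_inf_right _ inf_le_right) ((sf l).1 i) :=
      congrArg (fun z : D.family (U k ⊓ U l) ↦ z.1 i) (hsf k l)
    have h2 := congrArg (sRes (D.M i) (show (U k ⊓ D.U i) ⊓ (U l ⊓ D.U i) ≤ (U k ⊓ U l) ⊓ D.U i
      from le_inf (inf_le_inf inf_le_left inf_le_left) (inf_le_left.trans inf_le_right))) h1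
    rw [sRes_sRes, sRes_sRes] at h2
    exact h2
  choose t ht htu using hex
  have hmem : t ∈ D.family (iSup U) := by
    intro i j W hW hi hj
    refine TopCat.Sheaf.eq_of_locally_eq' ⟨_, (D.M j).isSheaf⟩ (fun k ↦ W ⊓ U k) W
      (fun k ↦ homOfLE inf_le_left) ?_ _ _ ?_
    · rw [← inf_iSup_eq]
      exact le_inf le_rfl hW
    · intro k
      change sRes (D.M j) inf_le_left ((D.φ i j).app W _ _) = sRes (D.M j) inf_le_left _
      rw [(D.φ i j).res, sRes_sRes, sRes_sRes]
      have h := (sf k).2 i j (W ⊓ U k) inf_le_right (inf_le_left.trans hi) (inf_le_left.trans hj)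
      rw [← ht i k, ← ht j k, sRes_sRes, sRes_sRes] at h
      exact h
  refine ⟨⟨t, hmem⟩, fun k ↦ Subtype.ext (funext fun i ↦ ht i k), fun y hy ↦ ?_⟩
  exact Subtype.ext (funext fun i ↦ htu i (y.1 i) fun k ↦
    congrArg (fun z : D.family (U k) ↦ z.1 i) (hy k))

/-- The glued sheaf of modules. -/
def glued : X.Modules where
  val := D.presheaf
  isSheaf := D.isSheaf

/-- A section of the glued sheaf as a compatible family. -/
def toFamily (V : X.Opens) : Γ(D.glued, V) ≃+ D.family V := AddEquiv.refl _

/-- Restriction of glued sections is restriction of families. -/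
lemma toFamily_sRes {V V' : X.Opens} (h : V' ≤ V) (x : Γ(D.glued, V)) :
    D.toFamily V' (sRes D.glued h x) = D.familyRes h (D.toFamily V x) := rfl

/-- The projection to the `i`-th piece. -/
def proj (i : D.ι) : SecHom D.glued (D.M i) (D.U i) where
  app V hV := AddMonoidHom.mk'
    (fun x ↦ sRes (D.M i) (le_inf le_rfl hV) ((D.toFamily V x).1 i)) fun x y ↦ by
      rw [map_add, Submodule.coe_add, Pi.add_apply, map_add]
  smul V hV r x := by
    simp only [AddMonoidHom.mk'_apply]
    change sRes (D.M i) _ (X.presheaf.map (homOfLE (inf_le_left : V ⊓ D.U i ≤ V)).op r •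
      (D.toFamily V x).1 i) = _
    rw [sRes_smul, ← CommRingCat.comp_apply, ← X.presheaf.map_comp]
    congr 1
    exact congr($(X.presheaf.map_id (op V)) r)
  res V V' hV h' x := by
    simp only [AddMonoidHom.mk'_apply]
    rw [sRes_sRes, toFamily_sRes, familyRes_apply, sRes_sRes]

/-- The projections are compatible with the gluing maps. -/
lemma proj_trans (i j : D.ι) (V : X.Opens) (hi : V ≤ D.U i) (hj : V ≤ D.U j) (x : Γ(D.glued, V)) :
    (D.φ i j).app V (le_inf hi hj) ((D.proj i).app V hi x) = (D.proj j).app V hj x :=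
  (D.toFamily V x).2 i j V le_rfl hi hj

/-- The section of the glued sheaf coming from the `i`-th piece. -/
def lift (i : D.ι) : SecHom (D.M i) D.glued (D.U i) where
  app V hV := AddMonoidHom.mk' (fun m ↦ (D.toFamily V).symm
    ⟨fun j ↦ (D.φ i j).app (V ⊓ D.U j) (inf_le_inf_right _ hV) (sRes (D.M i) inf_le_left m),
      fun j k W hW hj hk ↦ by
        rw [(D.φ i j).res, (D.φ i k).res, sRes_sRes, sRes_sRes,
          D.φ_trans i j k W _ _ (le_inf (hW.trans hV) hk)]⟩) fun x y ↦ by
      rw [← map_add]
      congr 1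
      exact Subtype.ext (funext fun j ↦ by simp [map_add])
  smul V hV r m := by
    simp only [AddMonoidHom.mk'_apply]
    apply (D.toFamily V).injective
    refine Subtype.ext (funext fun j ↦ ?_)
    change (D.φ i j).app _ (inf_le_inf_right _ hV) (sRes (D.M i) inf_le_left (r • m)) =
      X.presheaf.map (homOfLE (inf_le_left : V ⊓ D.U j ≤ V)).op r •
        (D.φ i j).app _ (inf_le_inf_right _ hV) (sRes (D.M i) inf_le_left m)
    rw [sRes_smul, (D.φ i j).smul]
  res V V' hV h' m := by
    simp only [AddMonoidHom.mk'_apply]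
    apply (D.toFamily V').injective
    refine Subtype.ext (funext fun j ↦ ?_)
    change sRes (D.M j) _ ((D.φ i j).app _ _ (sRes (D.M i) _ m)) =
      (D.φ i j).app _ _ (sRes (D.M i) _ (sRes (D.M i) _ m))
    rw [(D.φ i j).res, sRes_sRes, sRes_sRes]

/-- Projecting a lifted section gives it back. -/
lemma proj_lift (i : D.ι) (V : X.Opens) (hV : V ≤ D.U i) (m : Γ(D.M i, V)) :
    (D.proj i).app V hV ((D.lift i).app V hV m) = m := by
  change sRes (D.M i) _ ((D.φ i i).app _ _ (sRes (D.M i) _ m)) = m
  rw [D.φ_self, sRes_sRes, sRes_self]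

/-- Lifting a projected section gives it back. -/
lemma lift_proj (i : D.ι) (V : X.Opens) (hV : V ≤ D.U i) (x : Γ(D.glued, V)) :
    (D.lift i).app V hV ((D.proj i).app V hV x) = x := by
  apply (D.toFamily V).injective
  refine Subtype.ext (funext fun j ↦ ?_)
  change (D.φ i j).app _ _ (sRes (D.M i) _ (sRes (D.M i) _ ((D.toFamily V x).1 i))) = _
  rw [sRes_sRes]
  have h := (D.toFamily V x).2 i j (V ⊓ D.U j) inf_le_left (inf_le_left.trans hV) inf_le_right
  rw [sRes_self] at h
  exact h

end ModGlue

end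

end Fermat.PIC
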