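import Mathlib.AlgebraicGeometry.Modules.Tilde
import Mathlib.Algebra.Category.ModuleCat.ChangeOfRings
import Mathlib.CategoryTheory.Adjunction.Unique

/-!
# Pullback of sheaves of modules along a morphism of affine schemes commutes with `tilde`

`tildePullbackIso` is the comparison, and `pullbackTilde` its pointwise form.
-/

set_option autoImplicit false

universe u

open CategoryTheory AlgebraicGeometry

namespace Fermat.PIC

noncomputable section

variable {R S : CommRingCat.{u}} (φ : R ⟶ S)

/-- Global sections of a pushforward along `Spec.map φ`. -/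
def pushforwardΓIso :
    Scheme.Modules.pushforward (Spec.map φ) ⋙ moduleSpecΓFunctor (R := R) ≅
      moduleSpecΓFunctor (R := S) ⋙ ModuleCat.restrictScalars φ.hom :=
  Functor.isoWhiskerRight (pushforwardCompModulesSpecToSheafIso φ)
      (TopCat.Sheaf.forget _ _ ⋙ (CategoryTheory.evaluation _ _).obj (.op ⊤)) ≪≫
    NatIso.ofComponents (fun _ ↦ Iso.refl _) (fun _ ↦ by rfl)

/-- Pullback of `tilde M` along `Spec.map φ` is `tilde` of the extension of scalars. -/
def tildePullbackIso :
    tilde.functor R ⋙ Scheme.Modules.pullback (Spec.map φ) ≅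
      ModuleCat.extendScalars φ.hom ⋙ tilde.functor S :=
  Adjunction.leftAdjointUniq
    (((tilde.adjunction (R := R)).comp
      (Scheme.Modules.pullbackPushforwardAdjunction (Spec.map φ))).ofNatIsoRight
        (pushforwardΓIso φ))
    ((ModuleCat.extendRestrictScalarsAdj φ.hom).comp (tilde.adjunction (R := S)))

/-- Pointwise form of `tildePullbackIso`. -/
def pullbackTilde (M : ModuleCat.{u} R) :
    (Scheme.Modules.pullback (Spec.map φ)).obj (tilde M) ≅
      tilde ((ModuleCat.extendScalars φ.hom).obj M) :=
  (tildePullbackIso φ).app M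

end

end Fermat.PIC
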