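import Fermat.Prelude.Def_AlgebraicGeometry_RelativePicardFunctor
import Fermat.Agent.PIC.PullbackTilde
import Mathlib

/-!
# Invertible sheaves of modules

Invertible sheaves of modules are quasi-coherent.
-/

set_option autoImplicit false

universe u

open CategoryTheory CategoryTheory.Limits AlgebraicGeometry

namespace Fermat.PIC

noncomputable section

/-- The presentation of a free sheaf with no relations. -/
def freePresentation {C : Type*} [Category C] {J : GrothendieckTopology C}
    (R : Sheaf J RingCat.{u}) [HasSheafify J AddCommGrpCat.{u}]
    [J.WEqualsLocallyBijective AddCommGrpCat.{u}] (I : Type u) :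
    (SheafOfModules.free (R := R) I).Presentation where
  generators := SheafOfModules.free.generatingSections I
  relations :=
    { I := ULift Empty
      s := fun j ↦ Empty.rec _ j.down
      epi := by
        have : Mono (SheafOfModules.free.generatingSections (R := R) I).π := by
          rw [SheafOfModules.free.generatingSections_π]
          exact inferInstanceAs (Mono (𝟙 (SheafOfModules.free (R := R) I)))
        exact IsZero.epi (IsZero.of_iso (isZero_zero _) (kernel.ofMono _)) _ }

/-- An invertible sheaf restricts to the structure sheaf on an open around every point. -/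
lemma exists_restrict_unitIso {X : Scheme.{u}} {M : X.Modules}
    (hM : Scheme.Modules.IsInvertible M) (x : X) :
    ∃ U : X.Opens, x ∈ U ∧
      Nonempty (M.restrict U.ι ≅ SheafOfModules.unit U.toScheme.ringCatSheaf) := by
  obtain ⟨U, hx, ⟨e⟩⟩ := hM.exists_trivialization x
  exact ⟨U, hx, ⟨(Scheme.Modules.restrictFunctorIsoPullback U.ι).app M ≪≫ e⟩⟩

/-- Invertible sheaves are quasi-coherent. -/
lemma isInvertible_isQuasicoherent {X : Scheme.{u}} {M : X.Modules}
    (hM : Scheme.Modules.IsInvertible M) : M.IsQuasicoherent := by
  choose U hxU e using fun x : X ↦ exists_restrict_unitIso hM x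
  have hU : (Opens.grothendieckTopology X).CoversTop U := by
    rw [Opens.coversTop_iff]
    refine TopologicalSpace.IsOpenCover.mk ?_
    rw [eq_top_iff]
    intro x _
    exact TopologicalSpace.Opens.mem_iSup.mpr ⟨x, hxU x⟩
  let eover : ∀ x, M.over (U x) ≅ SheafOfModules.unit (X.ringCatSheaf.over (U x)) := fun x ↦
    (Scheme.Modules.overEquiv (U x)).unitIso.app _ ≪≫
      (Scheme.Modules.overEquiv (U x)).inverse.mapIso
        ((Scheme.Modules.overFunctorEquiv (U x)).app M ≪≫ (e x).some) ≪≫
      TopologicalSpace.Opens.sheafOfModulesEquivOverInverseUnit (U x) X.ringCatSheaf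
  exact SheafOfModules.QuasicoherentData.isQuasicoherent (M := M)
    { I := X, X := U, coversTop := hU,
      presentation := fun x ↦
        SheafOfModules.Presentation.ofIsIso
          ((coproductUniqueIso fun _ : PUnit.{u + 1} ↦
            SheafOfModules.unit (X.ringCatSheaf.over (U x))).hom ≫ (eover x).inv)
          (freePresentation _ _) }

end

end Fermat.PIC
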