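import Fermat.Prelude.Def_AlgebraicGeometry_RelativePicardFunctor
import Mathlib

/-!
# Pulling back sections of sheaves of modules

`sPull` is the pullback, semilinear, natural, and bijective inside the image of an open immersion.
-/

set_option autoImplicit false

universe u

open CategoryTheory CategoryTheory.Limits AlgebraicGeometry TopologicalSpace

namespace Fermat.PIC

noncomputable section

variable {X Y Z : Scheme.{u}}

/-- The pullback of sections of a sheaf of modules. -/
def sPull (f : X ⟶ Y) (M : Y.Modules) (U : Y.Opens) :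
    Γ(M, U) →+ Γ((Scheme.Modules.pullback f).obj M, f ⁻¹ᵁ U) :=
  (((Scheme.Modules.pullbackPushforwardAdjunction f).unit.app M).app U).hom

/-- Pullback of sections is semilinear. -/
lemma sPull_smul (f : X ⟶ Y) (M : Y.Modules) (U : Y.Opens) (r : Γ(Y, U)) (x : Γ(M, U)) :
    sPull f M U (r • x) = (f.app U r) • sPull f M U x :=
  ((((Scheme.Modules.pullbackPushforwardAdjunction f).unit.app M).val.app (.op U)).hom.map_smul r x)

/-- Pullback of sections is natural in the sheaf. -/
lemma sPull_natural (f : X ⟶ Y) {M N : Y.Modules} (φ : M ⟶ N) (U : Y.Opens) (x : Γ(M, U)) :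
    ((Scheme.Modules.pullback f).map φ).app (f ⁻¹ᵁ U) (sPull f M U x) =
      sPull f N U (φ.app U x) := by
  have h := (Scheme.Modules.pullbackPushforwardAdjunction f).unit.naturality φ
  exact (congr($(congrArg (fun ψ : M ⟶ _ ↦ ψ.app U) h) x)).symm

/-- Pullback of sections commutes with the restriction maps of the presheaves. -/
lemma sPull_map (f : X ⟶ Y) (M : Y.Modules) {U V : Y.Opens} (h : V ≤ U) (x : Γ(M, U)) :
    ((Scheme.Modules.pullback f).obj M).presheaf.map
        ((Opens.map f.base).map (homOfLE h)).op (sPull f M U x) =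
      sPull f M V (M.presheaf.map (homOfLE h).op x) :=
  (congr($(((Scheme.Modules.pullbackPushforwardAdjunction f).unit.app M).mapPresheaf.naturality
    (homOfLE h).op) x)).symm

/-- Pullback of sections is compatible with composition. -/
lemma sPull_comp (f : X ⟶ Y) (g : Y ⟶ Z) (M : Z.Modules) (U : Z.Opens) (x : Γ(M, U)) :
    ((Scheme.Modules.pullbackComp f g).hom.app M).app (f ⁻¹ᵁ (g ⁻¹ᵁ U))
        (sPull f _ (g ⁻¹ᵁ U) (sPull g M U x)) = sPull (f ≫ g) M U x := by
  have h := unit_conjugateEquiv
    ((Scheme.Modules.pullbackPushforwardAdjunction g).comp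
      (Scheme.Modules.pullbackPushforwardAdjunction f))
    (Scheme.Modules.pullbackPushforwardAdjunction (f ≫ g)) (Scheme.Modules.pullbackComp f g).inv M
  rw [Scheme.Modules.conjugateEquiv_pullbackComp_inv, Adjunction.comp_unit_app] at h
  have h2 := congr($(congrArg (fun ψ : M ⟶ _ ↦ ψ.app U) h) x)
  simp only [Scheme.Modules.Hom.comp_app, AddCommGrpCat.hom_comp, AddMonoidHom.coe_comp,
    Function.comp_apply] at h2
  have h3 := congrArg
    (((Scheme.Modules.pullbackComp f g).hom.app M).app (f ⁻¹ᵁ (g ⁻¹ᵁ U))) h2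
  refine h3.trans ?_
  exact congr($(congrArg (fun ψ : _ ⟶ (Scheme.Modules.pullback (f ≫ g)).obj M ↦
    ψ.app ((f ≫ g) ⁻¹ᵁ U)) ((Scheme.Modules.pullbackComp f g).inv_hom_id_app M))
    (sPull (f ≫ g) M U x))

/-- The unit section of the structure sheaf. -/
def oneSec (X : Scheme.{u}) (U : X.Opens) :
    Γ((SheafOfModules.unit X.ringCatSheaf : X.Modules), U) :=
  (1 : Γ(X, U))

/-- The unit section pulls back to the unit section. -/
lemma sPull_one (f : X ⟶ Y) (U : Y.Opens) :
    (Scheme.Modules.pullbackUnitIso f).hom.app (f ⁻¹ᵁ U)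
        (sPull f (SheafOfModules.unit Y.ringCatSheaf) U (oneSec Y U)) =
      oneSec X (f ⁻¹ᵁ U) := by
  have h := Adjunction.homEquiv_unit (adj := Scheme.Modules.pullbackPushforwardAdjunction f)
    (f := SheafOfModules.pullbackObjUnitToUnit f.toRingCatSheafHom)
  have h2 : ((Scheme.Modules.pullbackPushforwardAdjunction f).homEquiv _ _)
      (SheafOfModules.pullbackObjUnitToUnit f.toRingCatSheafHom) =
        SheafOfModules.unitToPushforwardObjUnit f.toRingCatSheafHom :=
    Equiv.apply_symm_apply _ _
  rw [h2] at h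
  exact (congr($(congrArg
    (fun ψ : (SheafOfModules.unit Y.ringCatSheaf : Y.Modules) ⟶ _ ↦
      Scheme.Modules.Hom.app ψ U) h.symm) (oneSec Y U))).trans (f.app U).hom.map_one

/-- Pullback of sections along an open immersion is bijective inside its image. -/
lemma sPull_bijective_of_isOpenImmersion (j : X ⟶ Y) [IsOpenImmersion j] (M : Y.Modules)
    (U : Y.Opens) (hU : U ≤ j.opensRange) : Function.Bijective (sPull j M U) := by
  have h := Adjunction.unit_leftAdjointUniq_hom_app (Scheme.Modules.restrictAdjunction j)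
    (Scheme.Modules.pullbackPushforwardAdjunction j) M
  have hU' : j ''ᵁ (j ⁻¹ᵁ U) = U := by
    rw [Scheme.Hom.image_preimage_eq_opensRange_inf, inf_eq_right.mpr hU]
  have e : sPull j M U = (((Scheme.Modules.restrictFunctorIsoPullback j).hom.app M).app
      (j ⁻¹ᵁ U)).hom.comp (((Scheme.Modules.restrictAdjunction j).unit.app M).app U).hom := by
    ext x
    exact (congr($(congrArg (fun ψ : M ⟶ _ ↦ ψ.app U) h) x)).symm
  rw [e, AddMonoidHom.coe_comp]
  refine Function.Bijective.comp (ConcreteCategory.bijective_of_isIso _) ?_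
  rw [Scheme.Modules.restrictAdjunction_unit_app_app]
  have : IsIso (homOfLE (j.image_preimage_le U)).op :=
    ⟨⟨(homOfLE hU'.ge).op, Subsingleton.elim _ _, Subsingleton.elim _ _⟩⟩
  exact ConcreteCategory.bijective_of_isIso (M.presheaf.map (homOfLE (j.image_preimage_le U)).op)

end

end Fermat.PIC
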